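import Mathlib
import Fermat.Agent.S24.JDef
import Fermat.Agent.S24.InvJ
import Fermat.Agent.S24.HolFun

/-!
# Weakly holomorphic weight two forms of level one (helper96, P-S20 bridge piece B2-core)

A holomorphic function `g` on the upper half plane which is invariant of weight two under
`SL(2, ℤ)` and meromorphic at the cusp (`Δ ^ M * g` bounded at `i∞`) is of the form
`P(j) * (E₄² E₆ / Δ)` for a polynomial `P`.  (Up to the factor `-2πi`, `E₄² E₆ / Δ` is the
derivative of `j`.)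

Main results (namespace `Fermat.Agent.S20`):
* `E6_I_eq_zero`, `E4_rhoPt_eq_zero`, `jFn_I`, `jFn_rhoPt`;
* `jFn_sub_1728` : `j - 1728 = E₆² / Δ`;
* `exists_polynomial_of_weight_two`.
-/

set_option autoImplicit false

namespace Fermat.Agent.S20

open UpperHalfPlane ModularForm MatrixGroups EisensteinSeries ModularFormClass
open Fermat.Agent.S24
open scoped Manifold

local notation "Δ" => ModularForm.discriminant

/-! ### Zeros of `E₄` and `E₆` -/

theorem E6_I_eq_zero : E₆ UpperHalfPlane.I = 0 := by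
  have hS : ((ModularGroup.S : SL(2,ℤ)) : GL (Fin 2) ℝ) ∈ 𝒮ℒ := ⟨ModularGroup.S, rfl⟩
  have h := SlashInvariantForm.slash_action_eqn'' E₆ hS UpperHalfPlane.I
  have hfix : (ModularGroup.S : SL(2,ℤ)) • UpperHalfPlane.I = UpperHalfPlane.I := by
    rw [UpperHalfPlane.modular_S_smul]
    ext
    simp
  rw [← ModularGroup.sl_moeb, hfix] at h
  have hd : denom ((ModularGroup.S : SL(2,ℤ)) : GL (Fin 2) ℝ) (UpperHalfPlane.I : ℍ)
      = Complex.I := by
    have := ModularGroup.denom_S UpperHalfPlane.I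
    simpa using this
  rw [hd] at h
  have hI6 : (Complex.I : ℂ) ^ (6 : ℤ) = -1 := by
    have : (Complex.I : ℂ) ^ (6 : ℤ) = Complex.I ^ (6 : ℕ) := by norm_cast
    rw [this]
    have h2 : Complex.I ^ 6 = (Complex.I ^ 2) ^ 3 := by ring
    rw [h2, Complex.I_sq]; norm_num
  rw [hI6] at h
  have : (2 : ℂ) * E₆ UpperHalfPlane.I = 0 := by linear_combination h
  simpa using this

/-- The point `ρ = (-1 + i √3)/2`. -/
noncomputable def rhoPt : ℍ := ⟨⟨-1/2, Real.sqrt 3 / 2⟩, by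
  show 0 < Real.sqrt 3 / 2
  positivity⟩

theorem rhoPt_sq : (rhoPt : ℂ) ^ 2 + (rhoPt : ℂ) + 1 = 0 := by
  have h3 : (Real.sqrt 3 : ℝ) ^ 2 = 3 := Real.sq_sqrt (by norm_num)
  apply Complex.ext
  · simp [rhoPt, pow_two]
    nlinarith [h3]
  · simp [rhoPt, pow_two]
    ring

theorem ST_smul_rhoPt : (ModularGroup.S * ModularGroup.T : SL(2,ℤ)) • rhoPt = rhoPt := by
  rw [mul_smul, UpperHalfPlane.modular_T_smul, UpperHalfPlane.modular_S_smul]
  ext
  simp only [UpperHalfPlane.coe_vadd]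
  have h := rhoPt_sq
  have hne : ((1 : ℝ) : ℂ) + (rhoPt : ℂ) ≠ 0 := by
    intro h0
    have : (rhoPt : ℂ) = -1 := by push_cast at h0; linear_combination h0
    rw [this] at h; norm_num at h
  show (-(((1 : ℝ) : ℂ) + (rhoPt : ℂ)))⁻¹ = (rhoPt : ℂ)
  rw [inv_eq_iff_eq_inv]
  have hr : (rhoPt : ℂ) ≠ 0 := by
    intro h0; rw [h0] at h; norm_num at h
  field_simp
  push_cast
  linear_combination (-1 : ℂ) * h

theorem denom_ST (z : ℍ) :
    denom (((ModularGroup.S * ModularGroup.T : SL(2,ℤ))) : GL (Fin 2) ℝ) (z : ℍ)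
      = (z : ℂ) + 1 := by
  simp [denom, ModularGroup.S, ModularGroup.T, Matrix.mul_apply, Fin.sum_univ_two]

theorem E4_rhoPt_eq_zero : E₄ rhoPt = 0 := by
  have hS : (((ModularGroup.S * ModularGroup.T : SL(2,ℤ))) : GL (Fin 2) ℝ) ∈ 𝒮ℒ := ⟨_, rfl⟩
  have h := SlashInvariantForm.slash_action_eqn'' E₄ hS rhoPt
  rw [← ModularGroup.sl_moeb, ST_smul_rhoPt, denom_ST] at h
  have hr := rhoPt_sq
  have h4 : ((rhoPt : ℂ) + 1) ^ (4 : ℤ) = (rhoPt : ℂ) ^ 2 := by
    have : ((rhoPt : ℂ) + 1) ^ (4 : ℤ) = ((rhoPt : ℂ) + 1) ^ (4 : ℕ) := by norm_cast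
    rw [this]
    have h1 : (rhoPt : ℂ) + 1 = - (rhoPt : ℂ) ^ 2 := by linear_combination hr
    have h3 : (rhoPt : ℂ) ^ 3 = 1 := by linear_combination ((rhoPt : ℂ) - 1) * hr
    rw [h1]
    calc (-(rhoPt : ℂ) ^ 2) ^ 4 = ((rhoPt : ℂ) ^ 3) ^ 2 * (rhoPt : ℂ) ^ 2 := by ring
      _ = (rhoPt : ℂ) ^ 2 := by rw [h3]; ring
  rw [h4] at h
  have hne : (rhoPt : ℂ) ^ 2 ≠ 1 := by
    intro h1
    have h2 : (rhoPt : ℂ) = -2 := by linear_combination hr - h1
    rw [h2] at h1; norm_num at h1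
  have : (1 - (rhoPt : ℂ) ^ 2) * E₄ rhoPt = 0 := by linear_combination h
  rcases mul_eq_zero.mp this with h0 | h0
  · exact absurd (by linear_combination -h0) hne
  · exact h0

/-! ### Values of `j` -/

theorem jFn_sub_1728 (z : ℍ) : jFn z - 1728 = E₆ z ^ 2 / Δ z := by
  have hΔ : Δ z ≠ 0 := discriminant_ne_zero z
  have h := discriminant_eq_E₄_cube_sub_E₆_sq z
  rw [jFn]
  field_simp
  linear_combination (-1728 : ℂ) * h

theorem jFn_rhoPt : jFn rhoPt = 0 := by
  rw [jFn, E4_rhoPt_eq_zero]; simp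

theorem jFn_I : jFn UpperHalfPlane.I = 1728 := by
  have h := jFn_sub_1728 UpperHalfPlane.I
  rw [E6_I_eq_zero] at h
  simp at h
  linear_combination h

theorem E4_I_ne_zero : E₄ UpperHalfPlane.I ≠ 0 := by
  intro h0
  have h := jFn_I
  rw [jFn, h0] at h
  norm_num at h

theorem E6_rhoPt_ne_zero : E₆ rhoPt ≠ 0 := by
  intro h0
  have h := jFn_sub_1728 rhoPt
  rw [jFn_rhoPt, h0] at h
  norm_num at h

/-! ### Auxiliary facts -/

theorem mdiff_polynomial_comp (P : Polynomial ℂ) {f : ℍ → ℂ} (hf : MDiff f) :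
    MDiff (fun z => P.eval (f z)) := by
  have h1 : MDiff (fun w : ℂ => P.eval w) := P.differentiable.mdifferentiable
  exact h1.comp hf

theorem slash_two_apply {g : ℍ → ℂ} (hinv : ∀ γ : SL(2, ℤ), g ∣[(2 : ℤ)] γ = g)
    (γ : SL(2, ℤ)) (z : ℍ) :
    g (γ • z) = denom (γ : GL (Fin 2) ℝ) z ^ 2 * g z := by
  have h := congrFun (hinv γ) z
  rw [SL_slash_apply] at h
  have hd : denom (γ : GL (Fin 2) ℝ) z ≠ 0 := denom_ne_zero _ z
  rw [zpow_neg] at h
  have h2 : (denom (γ : GL (Fin 2) ℝ) z) ^ (2 : ℤ) = denom (γ : GL (Fin 2) ℝ) z ^ 2 := by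
    norm_cast
  rw [h2] at h
  field_simp at h
  rw [h]

/-- A holomorphic function vanishing after multiplication by `E₄ * E₆` vanishes. -/
theorem eq_zero_of_mul_E4_mul_E6_eq_zero {h : ℍ → ℂ} (hh : MDiff h)
    (h0 : ∀ z, h z * (E₄ z * E₆ z) = 0) : ∀ z, h z = 0 := by
  have h4 : MDiff (E₄ : ℍ → ℂ) := ModularForm.E₄.holo'
  have h6 : MDiff (E₆ : ℍ → ℂ) := ModularForm.E₆.holo'
  set H : HolFun := HolFun.mk h hh
  set e4 : HolFun := HolFun.mk _ h4
  set e6 : HolFun := HolFun.mk _ h6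
  have hprod : H * (e4 * e6) = 0 := by
    apply HolFun.ext
    intro τ
    simpa [H, e4, e6] using h0 τ
  have he4 : e4 ≠ 0 := by
    intro h'
    have := congrArg (fun f : HolFun => (f : ℍ → ℂ) UpperHalfPlane.I) h'
    simp [e4] at this
    exact E4_I_ne_zero this
  have he6 : e6 ≠ 0 := by
    intro h'
    have := congrArg (fun f : HolFun => (f : ℍ → ℂ) rhoPt) h'
    simp [e6] at this
    exact E6_rhoPt_ne_zero this
  rcases mul_eq_zero.mp hprod with hH | h46
  · intro z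
    have := congrArg (fun f : HolFun => (f : ℍ → ℂ) z) hH
    simpa [H] using this
  · rcases mul_eq_zero.mp h46 with h' | h'
    · exact absurd h' he4
    · exact absurd h' he6

/-! ### The main theorem -/

/-- **Weakly holomorphic level one forms of weight two.** A holomorphic function on the upper
half plane, invariant of weight `2` under `SL(2, ℤ)` and meromorphic at the cusp, is a
polynomial in `j` times `E₄² E₆ / Δ`. -/
theorem exists_polynomial_of_weight_two (g : ℍ → ℂ) (hol : MDiff g)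
    (hinv : ∀ γ : SL(2, ℤ), g ∣[(2 : ℤ)] γ = g) (M : ℕ)
    (hbdd : IsBoundedAtImInfty (fun z : ℍ => Δ z ^ M * g z)) :
    ∃ P : Polynomial ℂ, (P ≠ 0 → P.natDegree + 1 ≤ M) ∧
      ∀ z : ℍ, g z = P.eval (jFn z) * (E₄ z ^ 2 * E₆ z / Δ z) := by
  have h4 : MDiff (E₄ : ℍ → ℂ) := ModularForm.E₄.holo'
  have h6 : MDiff (E₆ : ℍ → ℂ) := ModularForm.E₆.holo'
  have hD : MDiff (Δ : ℍ → ℂ) := CuspForm.discriminant.holo'
  -- the invariant function `f = g E₄ E₆ / Δ`
  set f : ℍ → ℂ := fun z => g z * E₄ z * E₆ z / Δ z with hf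
  have hfol : MDiff f := ((hol.mul h4).mul h6).div hD discriminant_ne_zero
  have hfinv : ∀ (γ : SL(2, ℤ)) (z : ℍ), f (γ • z) = f z := by
    intro γ z
    have hγ : (γ : GL (Fin 2) ℝ) ∈ 𝒮ℒ := ⟨γ, rfl⟩
    have e4 := SlashInvariantForm.slash_action_eqn'' ModularForm.E₄ hγ z
    have e6 := SlashInvariantForm.slash_action_eqn'' ModularForm.E₆ hγ z
    have eD := SlashInvariantForm.slash_action_eqn'' CuspForm.discriminant hγ z
    rw [CuspForm.coe_discriminant] at eD
    have eg := slash_two_apply hinv γ z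
    have hd : denom (γ : GL (Fin 2) ℝ) z ≠ 0 := denom_ne_zero _ z
    have hz : Δ z ≠ 0 := discriminant_ne_zero z
    rw [ModularGroup.sl_moeb] at eg
    show g (γ • z) * E₄ (γ • z) * E₆ (γ • z) / Δ (γ • z) = g z * E₄ z * E₆ z / Δ z
    rw [ModularGroup.sl_moeb, e4, e6, eD, eg]
    generalize denom (γ : GL (Fin 2) ℝ) z = d at hd
    rw [zpow_ofNat, zpow_ofNat, zpow_ofNat]
    field_simp
  have hfbdd : IsBoundedAtImInfty (fun z : ℍ => Δ z ^ (M + 1) * f z) := by
    have hb4 : IsBoundedAtImInfty (E₄ : ℍ → ℂ) := ModularFormClass.bdd_at_infty E₄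
    have hb6 : IsBoundedAtImInfty (E₆ : ℍ → ℂ) := ModularFormClass.bdd_at_infty E₆
    have hprod : IsBoundedAtImInfty
        ((fun z : ℍ => Δ z ^ M * g z) * (E₄ : ℍ → ℂ) * (E₆ : ℍ → ℂ)) :=
      (hbdd.mul hb4).mul hb6
    convert hprod using 1
    funext z
    have hz : Δ z ≠ 0 := discriminant_ne_zero z
    simp only [hf, Pi.mul_apply]
    field_simp
    ring
  obtain ⟨R, hRdeg, hR⟩ := InvJ.exists_polynomial_of_invariant' f hfol hfinv (M + 1) hfbdd
  have hRj : ∀ z, f z = R.eval (jFn z) := fun z => by rw [hR z, jFn_def]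
  -- `R` vanishes at `0` and at `1728`
  have hR0 : R.eval 0 = 0 := by
    have h := hRj rhoPt
    rw [jFn_rhoPt] at h
    rw [← h]
    simp [hf, E4_rhoPt_eq_zero]
  have hR1728 : R.eval 1728 = 0 := by
    have h := hRj UpperHalfPlane.I
    rw [jFn_I] at h
    rw [← h]
    simp [hf, E6_I_eq_zero]
  obtain ⟨R₁, hR₁⟩ : Polynomial.X ∣ R := by
    rw [Polynomial.X_dvd_iff, Polynomial.coeff_zero_eq_eval_zero]; exact hR0
  have hR₁1728 : R₁.eval 1728 = 0 := by
    have : R.eval 1728 = 1728 * R₁.eval 1728 := by rw [hR₁]; simp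
    rw [this] at hR1728
    rcases mul_eq_zero.mp hR1728 with h | h
    · norm_num at h
    · exact h
  obtain ⟨P, hP⟩ : (Polynomial.X - Polynomial.C (1728 : ℂ)) ∣ R₁ :=
    Polynomial.dvd_iff_isRoot.mpr hR₁1728
  have hRP : R = Polynomial.X * ((Polynomial.X - Polynomial.C (1728 : ℂ)) * P) := by
    rw [hR₁, hP]
  refine ⟨P, ?_, ?_⟩
  · intro hP0
    have hdeg : R.natDegree = 1 + (1 + P.natDegree) := by
      rw [hRP, Polynomial.natDegree_mul Polynomial.X_ne_zero
        (mul_ne_zero (Polynomial.X_sub_C_ne_zero _) hP0),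
        Polynomial.natDegree_mul (Polynomial.X_sub_C_ne_zero _) hP0,
        Polynomial.natDegree_X, Polynomial.natDegree_X_sub_C]
    omega
  · -- the identity after multiplication by `E₄ E₆`
    set h : ℍ → ℂ := fun z => g z - P.eval (jFn z) * (E₄ z ^ 2 * E₆ z / Δ z) with hh
    have hhol : MDiff h :=
      hol.sub ((mdiff_polynomial_comp P jFn_mdiff).mul
        (((h4.pow 2).mul h6).div hD discriminant_ne_zero))
    have hkey : ∀ z, h z * (E₄ z * E₆ z) = 0 := by
      intro z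
      have hz : Δ z ≠ 0 := discriminant_ne_zero z
      have h1 := hRj z
      rw [hRP] at h1
      simp only [Polynomial.eval_mul, Polynomial.eval_X, Polynomial.eval_sub,
        Polynomial.eval_C] at h1
      rw [jFn_sub_1728 z] at h1
      simp only [hf] at h1
      have hj : jFn z = E₄ z ^ 3 / Δ z := rfl
      simp only [hh]
      rw [hj] at h1 ⊢
      field_simp at h1 ⊢
      linear_combination h1
    have hzero := eq_zero_of_mul_E4_mul_E6_eq_zero hhol hkey
    intro z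
    have := hzero z
    simp only [hh] at this
    linear_combination this

end Fermat.Agent.S20
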